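/-
S52 (3-5 switch), brick (D) -- helper74.

Integral Weierstrass models with prescribed `c₄, c₆` close to those of a given model, and transfer of
semistability at the primes where the new invariants are close to the old ones.

* `shortForm` : over `ℚ`, every Weierstrass curve is `VariableChange`-equivalent to
  `y² = x³ - 27 c₄ x - 54 c₆`.
* `exists_model_of_close` : if `1728 ∣ c4' - W.c₄` and `1728 ∣ c6' - W.c₆` there is an integral model
  `W'` with the same `a₁, a₂, a₃` and `W'.c₄ = c4'`, `W'.c₆ = c6'`.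
* `dvd_Δ_sub_of_close`, `dvd_Δ_iff_of_close`, `dvd_c₄_iff_of_close` : closeness of `Δ`, `c₄` at the primes
  `q` with `1728 * q ∣ K`, `K ∣ c4' - c4`, `K ∣ c6' - c6`.
* `isSemistableModel_of_close` : the packaging lemma; the `far` clause is what the Klein-form
  Bezout/valuation argument has to supply.
-/
import Mathlib
import Fermat.Prelude.Def_FLTPrelim_Modularity

set_option autoImplicit false

namespace Fermat.Agent.S52.Model.ModelClose74

open WeierstrassCurve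

/-- The short Weierstrass curve `y² = x³ - 27 c4 x - 54 c6`. -/
def shortCurve {R : Type*} [CommRing R] (c4 c6 : R) : WeierstrassCurve R :=
  ⟨0, 0, 0, -27 * c4, -54 * c6⟩

@[simp] lemma shortCurve_a₁ {R : Type*} [CommRing R] (c4 c6 : R) : (shortCurve c4 c6).a₁ = 0 := rfl
@[simp] lemma shortCurve_a₂ {R : Type*} [CommRing R] (c4 c6 : R) : (shortCurve c4 c6).a₂ = 0 := rfl
@[simp] lemma shortCurve_a₃ {R : Type*} [CommRing R] (c4 c6 : R) : (shortCurve c4 c6).a₃ = 0 := rfl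
@[simp] lemma shortCurve_a₄ {R : Type*} [CommRing R] (c4 c6 : R) :
    (shortCurve c4 c6).a₄ = -27 * c4 := rfl
@[simp] lemma shortCurve_a₆ {R : Type*} [CommRing R] (c4 c6 : R) :
    (shortCurve c4 c6).a₆ = -54 * c6 := rfl

lemma shortCurve_c₄ {R : Type*} [CommRing R] (c4 c6 : R) :
    (shortCurve c4 c6).c₄ = 1296 * c4 := by
  simp only [WeierstrassCurve.c₄, WeierstrassCurve.b₂, WeierstrassCurve.b₄, shortCurve_a₁,
    shortCurve_a₂, shortCurve_a₃, shortCurve_a₄]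
  ring

lemma shortCurve_c₆ {R : Type*} [CommRing R] (c4 c6 : R) :
    (shortCurve c4 c6).c₆ = 46656 * c6 := by
  simp only [WeierstrassCurve.c₆, WeierstrassCurve.b₂, WeierstrassCurve.b₄, WeierstrassCurve.b₆,
    shortCurve_a₁, shortCurve_a₂, shortCurve_a₃, shortCurve_a₄, shortCurve_a₆]
  ring

/-- The explicit change of variables to the short form `y² = x³ - 27 c₄ x - 54 c₆` over `ℚ`. -/
noncomputable def toShort (W : WeierstrassCurve ℚ) : VariableChange ℚ :=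
  ⟨Units.mk0 (1 / 6) (by norm_num), -W.b₂ / 12, -W.a₁ / 2, -(W.a₃ + (-W.b₂ / 12) * W.a₁) / 2⟩

lemma toShort_uInv (W : WeierstrassCurve ℚ) : (((toShort W).u⁻¹ : ℚˣ) : ℚ) = 6 := by
  simp [toShort]

lemma toShort_r (W : WeierstrassCurve ℚ) : (toShort W).r = -W.b₂ / 12 := rfl
lemma toShort_s (W : WeierstrassCurve ℚ) : (toShort W).s = -W.a₁ / 2 := rfl
lemma toShort_t (W : WeierstrassCurve ℚ) :
    (toShort W).t = -(W.a₃ + (-W.b₂ / 12) * W.a₁) / 2 := rfl

/-- **(D0)** Every Weierstrass curve over `ℚ` is `VariableChange`-equivalent to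
`y² = x³ - 27 c₄ x - 54 c₆`. -/
theorem toShort_smul (W : WeierstrassCurve ℚ) : toShort W • W = shortCurve W.c₄ W.c₆ := by
  ext
  · rw [variableChange_a₁, toShort_uInv, toShort_s, shortCurve_a₁]; ring
  · rw [variableChange_a₂, toShort_uInv, toShort_s, toShort_r, shortCurve_a₂]
    simp only [WeierstrassCurve.b₂]; ring
  · rw [variableChange_a₃, toShort_uInv, toShort_r, toShort_t, shortCurve_a₃]
    simp only [WeierstrassCurve.b₂]; ring
  · rw [variableChange_a₄, toShort_uInv, toShort_r, toShort_s, toShort_t, shortCurve_a₄]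
    simp only [WeierstrassCurve.b₂, WeierstrassCurve.b₄, WeierstrassCurve.c₄]; ring
  · rw [variableChange_a₆, toShort_uInv, toShort_r, toShort_t, shortCurve_a₆]
    simp only [WeierstrassCurve.b₂, WeierstrassCurve.b₄, WeierstrassCurve.b₆, WeierstrassCurve.c₆]
    ring

theorem shortForm (W : WeierstrassCurve ℚ) :
    ∃ C : VariableChange ℚ, C • W = shortCurve W.c₄ W.c₆ :=
  ⟨toShort W, toShort_smul W⟩

/-- An integral model is an integral model (Prelude sense) of the short curve of its invariants. -/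
theorem isIntegralModelOf_shortCurve (W' : WeierstrassCurve ℤ) :
    W'.IsIntegralModelOf (shortCurve (W'.c₄ : ℚ) (W'.c₆ : ℚ)) := by
  set E := W'.map (Int.castRingHom ℚ) with hE
  have h4 : E.c₄ = (W'.c₄ : ℚ) := by rw [hE, WeierstrassCurve.map_c₄]; rfl
  have h6 : E.c₆ = (W'.c₆ : ℚ) := by rw [hE, WeierstrassCurve.map_c₆]; rfl
  refine ⟨(toShort E)⁻¹, ?_⟩
  rw [← h4, ← h6, ← toShort_smul E, inv_smul_smul]

/-- **(D1)** The integral model with the same `a₁, a₂, a₃` and prescribed `c₄, c₆`. -/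
def closeModel (W : WeierstrassCurve ℤ) (c4' c6' : ℤ) : WeierstrassCurve ℤ :=
  ⟨W.a₁, W.a₂, W.a₃, W.a₄ - (c4' - W.c₄) / 48,
    W.a₆ - (2 * (c6' - W.c₆) + 3 * W.b₂ * (c4' - W.c₄)) / 1728⟩

@[simp] lemma closeModel_a₁ (W : WeierstrassCurve ℤ) (c4' c6' : ℤ) :
    (closeModel W c4' c6').a₁ = W.a₁ := rfl
@[simp] lemma closeModel_a₂ (W : WeierstrassCurve ℤ) (c4' c6' : ℤ) :
    (closeModel W c4' c6').a₂ = W.a₂ := rfl
@[simp] lemma closeModel_a₃ (W : WeierstrassCurve ℤ) (c4' c6' : ℤ) :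
    (closeModel W c4' c6').a₃ = W.a₃ := rfl

lemma closeModel_a₄ (W : WeierstrassCurve ℤ) (c4' c6' : ℤ) :
    (closeModel W c4' c6').a₄ = W.a₄ - (c4' - W.c₄) / 48 := rfl
lemma closeModel_a₆ (W : WeierstrassCurve ℤ) (c4' c6' : ℤ) :
    (closeModel W c4' c6').a₆ =
      W.a₆ - (2 * (c6' - W.c₆) + 3 * W.b₂ * (c4' - W.c₄)) / 1728 := rfl

lemma closeModel_b₂ (W : WeierstrassCurve ℤ) (c4' c6' : ℤ) :
    (closeModel W c4' c6').b₂ = W.b₂ := rfl

theorem closeModel_c₄ (W : WeierstrassCurve ℤ) {c4' : ℤ} (c6' : ℤ) (h4 : (48 : ℤ) ∣ c4' - W.c₄) :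
    (closeModel W c4' c6').c₄ = c4' := by
  obtain ⟨m, hm⟩ := h4
  have hdiv : (c4' - W.c₄) / 48 = m := by rw [hm]; exact Int.mul_ediv_cancel_left m (by norm_num)
  have ha₄ : (closeModel W c4' c6').a₄ = W.a₄ - m := by rw [closeModel_a₄, hdiv]
  have e : (closeModel W c4' c6').c₄ = W.c₄ + 48 * m := by
    simp only [WeierstrassCurve.c₄, WeierstrassCurve.b₂, WeierstrassCurve.b₄, closeModel_a₁,
      closeModel_a₂, closeModel_a₃, ha₄]
    ring
  rw [e]; linarith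

theorem closeModel_c₆ (W : WeierstrassCurve ℤ) {c4' c6' : ℤ} (h4 : (48 : ℤ) ∣ c4' - W.c₄)
    (h6 : (1728 : ℤ) ∣ 2 * (c6' - W.c₆) + 3 * W.b₂ * (c4' - W.c₄)) :
    (closeModel W c4' c6').c₆ = c6' := by
  obtain ⟨m, hm⟩ := h4
  obtain ⟨n, hn⟩ := h6
  have hdiv : (c4' - W.c₄) / 48 = m := by rw [hm]; exact Int.mul_ediv_cancel_left m (by norm_num)
  have hdiv6 : (2 * (c6' - W.c₆) + 3 * W.b₂ * (c4' - W.c₄)) / 1728 = n := by
    rw [hn]; exact Int.mul_ediv_cancel_left n (by norm_num)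
  have ha₄ : (closeModel W c4' c6').a₄ = W.a₄ - m := by rw [closeModel_a₄, hdiv]
  have ha₆ : (closeModel W c4' c6').a₆ = W.a₆ - n := by rw [closeModel_a₆, hdiv6]
  have e : (closeModel W c4' c6').c₆ = W.c₆ - 72 * W.b₂ * m + 864 * n := by
    simp only [WeierstrassCurve.c₆, WeierstrassCurve.b₂, WeierstrassCurve.b₄, WeierstrassCurve.b₆,
      closeModel_a₁, closeModel_a₂, closeModel_a₃, ha₄, ha₆]
    ring
  rw [e]
  rw [hm] at hn
  linarith

/-- **(D1)**, existence form with a single modulus. -/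
theorem exists_model_of_close (W : WeierstrassCurve ℤ) {c4' c6' : ℤ}
    (h4 : (1728 : ℤ) ∣ c4' - W.c₄) (h6 : (1728 : ℤ) ∣ c6' - W.c₆) :
    ∃ W' : WeierstrassCurve ℤ, W'.a₁ = W.a₁ ∧ W'.a₂ = W.a₂ ∧ W'.a₃ = W.a₃ ∧
      W'.c₄ = c4' ∧ W'.c₆ = c6' := by
  have h48 : (48 : ℤ) ∣ c4' - W.c₄ := Dvd.dvd.trans (by norm_num) h4
  refine ⟨closeModel W c4' c6', rfl, rfl, rfl, closeModel_c₄ W c6' h48, closeModel_c₆ W h48 ?_⟩
  exact dvd_add (Dvd.dvd.mul_left h6 2) (Dvd.dvd.mul_left h4 _)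

/-- `1728 (Δ' - Δ)` is divisible by any common divisor of `c₄' - c₄` and `c₆' - c₆`. -/
theorem dvd_mul_Δ_sub (W W' : WeierstrassCurve ℤ) {K : ℤ} (h4 : K ∣ W'.c₄ - W.c₄)
    (h6 : K ∣ W'.c₆ - W.c₆) : K ∣ 1728 * (W'.Δ - W.Δ) := by
  have e : 1728 * (W'.Δ - W.Δ) =
      (W'.c₄ - W.c₄) * (W'.c₄ ^ 2 + W'.c₄ * W.c₄ + W.c₄ ^ 2) - (W'.c₆ - W.c₆) * (W'.c₆ + W.c₆) := by
    have h1 := W'.c_relation
    have h2 := W.c_relation
    linear_combination h1 - h2
  rw [e]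
  exact dvd_sub (Dvd.dvd.mul_right h4 _) (Dvd.dvd.mul_right h6 _)

/-- **(D2)** closeness of the discriminants at `q` when `1728 * q ∣ K`. -/
theorem dvd_Δ_sub_of_close (W W' : WeierstrassCurve ℤ) {K q : ℤ} (hK : 1728 * q ∣ K)
    (h4 : K ∣ W'.c₄ - W.c₄) (h6 : K ∣ W'.c₆ - W.c₆) : q ∣ W'.Δ - W.Δ := by
  have h := dvd_mul_Δ_sub W W' (hK.trans h4) (hK.trans h6)
  exact (mul_dvd_mul_iff_left (by norm_num : (1728 : ℤ) ≠ 0)).mp h

theorem dvd_Δ_iff_of_close (W W' : WeierstrassCurve ℤ) {K q : ℤ} (hK : 1728 * q ∣ K)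
    (h4 : K ∣ W'.c₄ - W.c₄) (h6 : K ∣ W'.c₆ - W.c₆) : q ∣ W'.Δ ↔ q ∣ W.Δ := by
  have h := dvd_Δ_sub_of_close W W' hK h4 h6
  constructor
  · intro h'
    have := dvd_sub h' h
    simpa using this
  · intro h'
    have := dvd_add h h'
    simpa using this

theorem dvd_c₄_iff_of_close (W W' : WeierstrassCurve ℤ) {K q : ℤ} (hK : 1728 * q ∣ K)
    (h4 : K ∣ W'.c₄ - W.c₄) : q ∣ W'.c₄ ↔ q ∣ W.c₄ := by
  have h : q ∣ W'.c₄ - W.c₄ := (Dvd.intro_left 1728 rfl).trans (hK.trans h4)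
  constructor
  · intro h'
    have := dvd_sub h' h
    simpa using this
  · intro h'
    have := dvd_add h h'
    simpa using this

/-- `Δ' ≠ 0` as soon as one close prime does not divide `Δ`. -/
theorem Δ_ne_zero_of_close (W W' : WeierstrassCurve ℤ) {K q : ℤ} (hK : 1728 * q ∣ K)
    (h4 : K ∣ W'.c₄ - W.c₄) (h6 : K ∣ W'.c₆ - W.c₆) (hq : ¬ q ∣ W.Δ) : W'.Δ ≠ 0 := by
  intro h0
  apply hq
  rw [← dvd_Δ_iff_of_close W W' hK h4 h6, h0]
  exact dvd_zero q

/-- **(D4)** Packaging: `W'` is a semistable model if `W` is, the invariants are `K`-close, and the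
`far` clause holds at the primes `q` with `¬ 1728 * q ∣ K`. -/
theorem isSemistableModel_of_close (W W' : WeierstrassCurve ℤ) (hW : W.IsSemistableModel) {K : ℤ}
    (h4 : K ∣ W'.c₄ - W.c₄) (h6 : K ∣ W'.c₆ - W.c₆)
    (far : ∀ q : ℕ, q.Prime → ¬ (1728 * (q : ℤ) ∣ K) → (q : ℤ) ∣ W'.Δ → ¬ (q : ℤ) ∣ W'.c₄) :
    W'.IsSemistableModel := by
  intro q hq hΔ
  by_cases hK : 1728 * (q : ℤ) ∣ K
  · rw [dvd_c₄_iff_of_close W W' hK h4]
    exact hW q hq ((dvd_Δ_iff_of_close W W' hK h4 h6).mp hΔ)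
  · exact far q hq hK hΔ

end Fermat.Agent.S52.Model.ModelClose74
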