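/-
S52 (3-5 switch), brick (D6) -- helper74.

Galois-equivariant transport of torsion between an integral model `W` and the short Weierstrass curve
`y² = x³ - 27 c₄ x - 54 c₆` of its invariants, over `ℚ̄`; and the resulting glue: an equivariant additive
surjection between the `n`-torsion of the short curves gives one between `Tors W n` and `Tors W' n`
(the shape consumed by `TopWiring84.FamilyStmt`).
-/
import Mathlib
import Fermat.Prelude.Def_FLTPrelim_Modularity
import Fermat.Prelude.Def_FLTPrelim_GaloisRep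
import Fermat.Agent.S05.TransportQ
import Fermat.Agent.S52.Model.ModelClose74

set_option autoImplicit false

open WeierstrassCurve WeierstrassCurve.Affine WeierstrassCurve.Affine.Point

namespace Fermat.Agent.S52.Model.TorsTransport74

open Fermat.Agent.S52.Model.ModelClose74

local notation "Qb" => AlgebraicClosure ℚ
local notation "GQ" => (AlgebraicClosure ℚ ≃ₐ[ℚ] AlgebraicClosure ℚ)

/-- the `n`-torsion of the base change to `ℚ̄` of a curve over `ℚ`, with its Galois action. -/
abbrev TorsQ (E : WeierstrassCurve ℚ) (n : ℕ) : Type :=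
  Submodule.torsionBy ℤ (E⁄Qb).Point n

/-- Restriction of an additive equivalence to `n`-torsion. -/
def torsEquiv {M N : Type*} [AddCommGroup M] [AddCommGroup N] (e : M ≃+ N) (n : ℕ) :
    Submodule.torsionBy ℤ M n ≃+ Submodule.torsionBy ℤ N n where
  toFun x := ⟨e x, by
    have hx := (Submodule.mem_torsionBy_iff _ _).mp x.2
    rw [Submodule.mem_torsionBy_iff, ← map_zsmul, hx, _root_.map_zero]⟩
  invFun y := ⟨e.symm y, by
    have hy := (Submodule.mem_torsionBy_iff _ _).mp y.2
    rw [Submodule.mem_torsionBy_iff, ← map_zsmul, hy, _root_.map_zero]⟩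
  left_inv x := Subtype.ext (e.symm_apply_apply x)
  right_inv y := Subtype.ext (e.apply_symm_apply y)
  map_add' x y := Subtype.ext (map_add e (x : M) y)

@[simp] lemma torsEquiv_coe {M N : Type*} [AddCommGroup M] [AddCommGroup N] (e : M ≃+ N) (n : ℕ)
    (x : Submodule.torsionBy ℤ M n) : ((torsEquiv e n x : Submodule.torsionBy ℤ N n) : N) = e x :=
  rfl

/-- **Transport along a rational change of variables**, on `n`-torsion over `ℚ̄`, Galois-equivariant. -/
theorem exists_torsEquiv_of_vc {E₁ E₂ : WeierstrassCurve ℚ} {C : VariableChange ℚ}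
    (h : E₁ = C • E₂) (n : ℕ) :
    ∃ φ : TorsQ E₁ n ≃+ TorsQ E₂ n, ∀ (σ : GQ) (x : TorsQ E₁ n), φ (σ • x) = σ • φ x := by
  refine ⟨torsEquiv (Fermat.Agent.S05.TransportQ.pointEquivBC Qb h) n, fun σ x => ?_⟩
  apply Subtype.ext
  exact Fermat.Agent.S05.TransportQ.pointEquivBC_map h σ.toAlgHom (x : (E₁⁄Qb).Point)

/-- **(D6)** the `n`-torsion of an integral model is the `n`-torsion of the short curve of its
invariants. -/
theorem exists_torsEquiv_short (W : WeierstrassCurve ℤ) (n : ℕ) :
    ∃ φ : TorsQ (W.map (Int.castRingHom ℚ)) n ≃+ TorsQ (shortCurve (W.c₄ : ℚ) (W.c₆ : ℚ)) n,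
      ∀ (σ : GQ) (x : TorsQ (W.map (Int.castRingHom ℚ)) n), φ (σ • x) = σ • φ x := by
  set E := W.map (Int.castRingHom ℚ) with hE
  have h4 : E.c₄ = (W.c₄ : ℚ) := by rw [hE, WeierstrassCurve.map_c₄]; rfl
  have h6 : E.c₆ = (W.c₆ : ℚ) := by rw [hE, WeierstrassCurve.map_c₆]; rfl
  have h : E = (toShort E)⁻¹ • shortCurve (W.c₄ : ℚ) (W.c₆ : ℚ) := by
    rw [← h4, ← h6, ← toShort_smul E, inv_smul_smul]
  exact exists_torsEquiv_of_vc h n

/-- **Glue for `FamilyStmt`.** An additive Galois-equivariant surjection between the `n`-torsion of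
the short curves of the invariants induces one between the `n`-torsion of the integral models. -/
theorem exists_hom_of_short (W W' : WeierstrassCurve ℤ) (n : ℕ)
    (ψ : TorsQ (shortCurve (W.c₄ : ℚ) (W.c₆ : ℚ)) n →+ TorsQ (shortCurve (W'.c₄ : ℚ) (W'.c₆ : ℚ)) n)
    (hsurj : Function.Surjective ψ)
    (hψ : ∀ (σ : GQ) (x : TorsQ (shortCurve (W.c₄ : ℚ) (W.c₆ : ℚ)) n), ψ (σ • x) = σ • ψ x) :
    ∃ φ : TorsQ (W.map (Int.castRingHom ℚ)) n →+ TorsQ (W'.map (Int.castRingHom ℚ)) n,
      Function.Surjective φ ∧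
        ∀ (σ : GQ) (x : TorsQ (W.map (Int.castRingHom ℚ)) n), φ (σ • x) = σ • φ x := by
  obtain ⟨e, he⟩ := exists_torsEquiv_short W n
  obtain ⟨e', he'⟩ := exists_torsEquiv_short W' n
  refine ⟨(e'.symm.toAddMonoidHom.comp ψ).comp e.toAddMonoidHom, ?_, fun σ x => ?_⟩
  · exact (e'.symm.surjective.comp hsurj).comp e.surjective
  · simp only [AddMonoidHom.coe_comp, AddEquiv.coe_toAddMonoidHom, Function.comp_apply]
    rw [he, hψ]
    apply e'.injective
    rw [he', AddEquiv.apply_symm_apply, AddEquiv.apply_symm_apply]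

end Fermat.Agent.S52.Model.TorsTransport74
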