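/-
S52 (3-5 switch), brick (D3) -- helper74.

The "far" clause for the twisted Klein family: at a prime `q ∤ 30 Δ` no member `p = s p₀ + t q₀`
(`q₀ = (f_v, -f_u)(p₀)`, `s, t` coprime) has `q ∣ f(p)` and `q ∣ H(p)` simultaneously.  Hence the new
bad primes of a member are multiplicative.

Everything is elementary commutative algebra:
* `mem_of_kH_kF_mem` : in a commutative ring, for a prime ideal `P ∌ 5`, `H(a,b), f(a,b) ∈ P` forces
  `a, b ∈ P` (explicit Bezout identities with constant `5⁵`).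
* `far_core` : the determinant argument (`det [p₀ | q₀] = -12 f(p₀)`, Euler).
* `klein_integral` : for a valuation subring `A ∌ 1/5`, `H(p₀) ∈ A`, `f(p₀) ∈ Aˣ` force `p₀ ∈ A²`.
* `not_both_nonunits`, `far_clause` : consumer-facing forms.

Normalisation: `kF = u v (u¹⁰ + 11 u⁵ v⁵ - v¹⁰)` is Klein's `f`; `kH = u²⁰ + v²⁰ - 228 (u¹⁵ v⁵ - u⁵ v¹⁵)
+ 494 u¹⁰ v¹⁰` is MINUS Klein's `H` (so `c₄ = kH`, `Δ = - kF⁵` for `T² + H³ = 1728 f⁵`); only the zero
loci matter here.
-/
import Mathlib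

set_option autoImplicit false

namespace Fermat.Agent.S52.Model.FarClause74

section forms

variable {R : Type*} [CommRing R]

/-- Klein's icosahedral form of degree `12`. -/
def kF (u v : R) : R := u * v * (u ^ 10 + 11 * u ^ 5 * v ^ 5 - v ^ 10)

/-- Minus Klein's Hessian form of degree `20`. -/
def kH (u v : R) : R :=
  u ^ 20 + v ^ 20 - 228 * (u ^ 15 * v ^ 5 - u ^ 5 * v ^ 15) + 494 * u ^ 10 * v ^ 10

/-- `∂f/∂u`. -/
def kFu (u v : R) : R := 11 * u ^ 10 * v + 66 * u ^ 5 * v ^ 6 - v ^ 11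

/-- `∂f/∂v`. -/
def kFv (u v : R) : R := u ^ 11 + 66 * u ^ 6 * v ^ 5 - 11 * u * v ^ 10

/-- Euler's identity for `f`. -/
lemma euler (u v : R) : u * kFu u v + v * kFv u v = 12 * kF u v := by
  simp only [kF, kFu, kFv]; ring

lemma kF_smul (w u v : R) : kF (u * w) (v * w) = w ^ 12 * kF u v := by
  simp only [kF]; ring

lemma kH_smul (w u v : R) : kH (u * w) (v * w) = w ^ 20 * kH u v := by
  simp only [kH]; ring

lemma map_kF {S : Type*} [CommRing S] (φ : R →+* S) (u v : R) : φ (kF u v) = kF (φ u) (φ v) := by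
  simp only [kF, map_mul, map_add, map_sub, map_pow, map_ofNat]

lemma map_kH {S : Type*} [CommRing S] (φ : R →+* S) (u v : R) : φ (kH u v) = kH (φ u) (φ v) := by
  simp only [kH, map_mul, map_add, map_sub, map_pow, map_ofNat]

lemma map_kFu {S : Type*} [CommRing S] (φ : R →+* S) (u v : R) : φ (kFu u v) = kFu (φ u) (φ v) := by
  simp only [kFu, map_mul, map_add, map_sub, map_pow, map_ofNat]

lemma map_kFv {S : Type*} [CommRing S] (φ : R →+* S) (u v : R) : φ (kFv u v) = kFv (φ u) (φ v) := by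
  simp only [kFv, map_mul, map_add, map_sub, map_pow, map_ofNat]

/-- Bezout identity `(122 X - 11 Y) h + (3003 X³ - 5206 X² Y - 2507 X Y² - 11 Y³) g = 5⁵ X⁵`
with `X = u⁵`, `Y = v⁵`. -/
lemma bezout_u (u v : R) :
    (122 * u ^ 5 - 11 * v ^ 5) * kH u v +
      (3003 * u ^ 15 - 5206 * u ^ 10 * v ^ 5 - 2507 * u ^ 5 * v ^ 10 - 11 * v ^ 15) *
        (u ^ 10 + 11 * u ^ 5 * v ^ 5 - v ^ 10) = 3125 * u ^ 25 := by
  simp only [kH]; ring

lemma bezout_v (u v : R) :
    (11 * u ^ 5 + 122 * v ^ 5) * kH u v +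
      (-11 * u ^ 15 + 2507 * u ^ 10 * v ^ 5 - 5206 * u ^ 5 * v ^ 10 - 3003 * v ^ 15) *
        (u ^ 10 + 11 * u ^ 5 * v ^ 5 - v ^ 10) = 3125 * v ^ 25 := by
  simp only [kH]; ring

/-- **Bezout / valuation step.** For a prime ideal `P ∌ 5`: `H(a,b) ∈ P` and `f(a,b) ∈ P` force
`a ∈ P` and `b ∈ P`. -/
theorem mem_of_kH_kF_mem (P : Ideal R) [hP : P.IsPrime] (h5 : (5 : R) ∉ P) {a b : R}
    (hH : kH a b ∈ P) (hF : kF a b ∈ P) : a ∈ P ∧ b ∈ P := by
  have h3125 : (3125 : R) ∉ P := by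
    intro h
    have : ((5 : R)) ^ 5 ∈ P := by
      have e : ((5 : R)) ^ 5 = 3125 := by norm_num
      rw [e]; exact h
    exact h5 (hP.mem_of_pow_mem 5 this)
  have key1 : a ∈ P → b ∈ P := by
    intro ha
    have e : b ^ 20 = kH a b -
        a * (a ^ 19 - 228 * (a ^ 14 * b ^ 5 - a ^ 4 * b ^ 15) + 494 * a ^ 9 * b ^ 10) := by
      simp only [kH]; ring
    have : b ^ 20 ∈ P := by
      rw [e]; exact P.sub_mem hH (P.mul_mem_right _ ha)
    exact hP.mem_of_pow_mem 20 this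
  have key2 : b ∈ P → a ∈ P := by
    intro hb
    have e : a ^ 20 = kH a b -
        b * (b ^ 19 - 228 * (a ^ 15 * b ^ 4 - a ^ 5 * b ^ 14) + 494 * a ^ 10 * b ^ 9) := by
      simp only [kH]; ring
    have : a ^ 20 ∈ P := by
      rw [e]; exact P.sub_mem hH (P.mul_mem_right _ hb)
    exact hP.mem_of_pow_mem 20 this
  have hF' : a * b * (a ^ 10 + 11 * a ^ 5 * b ^ 5 - b ^ 10) ∈ P := hF
  rcases hP.mem_or_mem hF' with hab | hg
  · rcases hP.mem_or_mem hab with ha | hb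
    · exact ⟨ha, key1 ha⟩
    · exact ⟨key2 hb, hb⟩
  · have h1 : (3125 : R) * a ^ 25 ∈ P := by
      rw [← bezout_u a b]
      exact P.add_mem (P.mul_mem_left _ hH) (P.mul_mem_left _ hg)
    have ha : a ∈ P := by
      rcases hP.mem_or_mem h1 with h | h
      · exact absurd h h3125
      · exact hP.mem_of_pow_mem 25 h
    exact ⟨ha, key1 ha⟩

/-- **Determinant step.** `p = s p₀ + t q₀` with `q₀ = (f_v, -f_u)(p₀)`: if `12 f(p₀) ∉ P` and
`s, t` are not both in `P` then `H(p)` and `f(p)` are not both in `P`. -/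
theorem far_core (P : Ideal R) [hP : P.IsPrime] (h5 : (5 : R) ∉ P) (h12 : (12 : R) ∉ P)
    {u0 v0 : R} (hF0 : kF u0 v0 ∉ P) {s t : R} (hst : ¬ (s ∈ P ∧ t ∈ P)) :
    ¬ (kH (s * u0 + t * kFv u0 v0) (s * v0 - t * kFu u0 v0) ∈ P ∧
       kF (s * u0 + t * kFv u0 v0) (s * v0 - t * kFu u0 v0) ∈ P) := by
  rintro ⟨hH, hF⟩
  obtain ⟨ha, hb⟩ := mem_of_kH_kF_mem P h5 hH hF
  have hdet : (12 : R) * kF u0 v0 ∉ P := by
    intro h
    rcases hP.mem_or_mem h with h | h
    · exact h12 h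
    · exact hF0 h
  apply hst
  constructor
  · have e : s * (12 * kF u0 v0) =
        (s * u0 + t * kFv u0 v0) * kFu u0 v0 + (s * v0 - t * kFu u0 v0) * kFv u0 v0 := by
      rw [← euler]; ring
    have h : s * (12 * kF u0 v0) ∈ P := by
      rw [e]; exact P.add_mem (P.mul_mem_right _ ha) (P.mul_mem_right _ hb)
    rcases hP.mem_or_mem h with h | h
    · exact h
    · exact absurd h hdet
  · have e : t * (12 * kF u0 v0) =
        (s * u0 + t * kFv u0 v0) * v0 - (s * v0 - t * kFu u0 v0) * u0 := by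
      rw [← euler]; ring
    have h : t * (12 * kF u0 v0) ∈ P := by
      rw [e]; exact P.sub_mem (P.mul_mem_right _ ha) (P.mul_mem_right _ hb)
    rcases hP.mem_or_mem h with h | h
    · exact h
    · exact absurd h hdet

end forms

section valuation

variable {K : Type*} [Field K]

lemma kH_swap {R : Type*} [CommRing R] (u v : R) : kH v (-u) = kH u v := by
  simp only [kH]; ring

lemma kF_swap {R : Type*} [CommRing R] (u v : R) : kF v (-u) = kF u v := by
  simp only [kF]; ring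

lemma one_not_mem_maximalIdeal (A : ValuationSubring K) :
    (1 : A) ∉ IsLocalRing.maximalIdeal A := by
  intro h
  exact (IsLocalRing.maximalIdeal.isMaximal A).ne_top ((Ideal.eq_top_iff_one _).mpr h)

lemma natCast_not_mem_maximalIdeal (A : ValuationSubring K) {n : ℕ}
    (h : (n : K) ∉ A.nonunits) : (n : A) ∉ IsLocalRing.maximalIdeal A := by
  intro h'
  apply h
  have := (ValuationSubring.coe_mem_nonunits_iff (A := A) (a := (n : A))).mpr h'
  simpa using this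

/-- One half of the integrality argument. -/
lemma klein_integral_aux (A : ValuationSubring K) (h5 : (5 : K) ∉ A.nonunits) {x y : K}
    (hxy : x / y ∈ A) (hyA : y ∉ A) (hH0 : kH x y ∈ A) (hF0 : kF x y ∈ A) : False := by
  have hy0 : y ≠ 0 := by
    rintro rfl
    exact hyA A.zero_mem
  have hvy : 1 < A.valuation y := by
    rw [← not_le, A.valuation_le_one_iff]
    exact hyA
  have hw : y⁻¹ ∈ A.nonunits := by
    rw [ValuationSubring.mem_nonunits_iff, map_inv₀]
    exact inv_lt_one_of_one_lt₀ hvy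
  obtain ⟨hwA, hwm⟩ := ValuationSubring.mem_nonunits_iff_exists_mem_maximalIdeal.mp hw
  have h5' : (5 : A) ∉ IsLocalRing.maximalIdeal A := by
    have := natCast_not_mem_maximalIdeal A (n := 5) (by simpa using h5)
    simpa using this
  have e1 : kH (⟨x / y, hxy⟩ : A) 1 = (⟨y⁻¹, hwA⟩ : A) ^ 20 * ⟨kH x y, hH0⟩ := by
    apply Subtype.ext
    have h1 : ((kH (⟨x / y, hxy⟩ : A) 1 : A) : K) = kH (x / y) 1 := by
      have := map_kH A.subtype (⟨x / y, hxy⟩ : A) 1
      simpa using this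
    rw [h1]
    have h2 : (((⟨y⁻¹, hwA⟩ : A) ^ 20 * ⟨kH x y, hH0⟩ : A) : K) = (y⁻¹) ^ 20 * kH x y := by
      push_cast; rfl
    rw [h2, ← kH_smul, mul_inv_cancel₀ hy0, div_eq_mul_inv]
  have e2 : kF (⟨x / y, hxy⟩ : A) 1 = (⟨y⁻¹, hwA⟩ : A) ^ 12 * ⟨kF x y, hF0⟩ := by
    apply Subtype.ext
    have h1 : ((kF (⟨x / y, hxy⟩ : A) 1 : A) : K) = kF (x / y) 1 := by
      have := map_kF A.subtype (⟨x / y, hxy⟩ : A) 1
      simpa using this
    rw [h1]
    have h2 : (((⟨y⁻¹, hwA⟩ : A) ^ 12 * ⟨kF x y, hF0⟩ : A) : K) = (y⁻¹) ^ 12 * kF x y := by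
      push_cast; rfl
    rw [h2, ← kF_smul, mul_inv_cancel₀ hy0, div_eq_mul_inv]
  have m1 : kH (⟨x / y, hxy⟩ : A) 1 ∈ IsLocalRing.maximalIdeal A := by
    rw [e1]
    exact Ideal.mul_mem_right _ _ (Ideal.pow_mem_of_mem _ hwm 20 (by norm_num))
  have m2 : kF (⟨x / y, hxy⟩ : A) 1 ∈ IsLocalRing.maximalIdeal A := by
    rw [e2]
    exact Ideal.mul_mem_right _ _ (Ideal.pow_mem_of_mem _ hwm 12 (by norm_num))
  exact one_not_mem_maximalIdeal A (mem_of_kH_kF_mem _ h5' m1 m2).2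

/-- **Integrality of the base point.** If `H(p₀) ∈ A`, `f(p₀) ∈ Aˣ` and `5 ∈ Aˣ` then `p₀ ∈ A²`. -/
theorem klein_integral (A : ValuationSubring K) (h5 : (5 : K) ∉ A.nonunits) {u0 v0 : K}
    (hH0 : kH u0 v0 ∈ A) (hF0 : kF u0 v0 ∈ A) (hF0' : kF u0 v0 ∉ A.nonunits) :
    u0 ∈ A ∧ v0 ∈ A := by
  have h0 : (0 : K) ∈ A.nonunits := by
    rw [ValuationSubring.mem_nonunits_iff, map_zero]; exact zero_lt_one
  have hu0 : u0 ≠ 0 := by
    rintro rfl
    apply hF0'
    have : kF (0 : K) v0 = 0 := by simp [kF]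
    rw [this]; exact h0
  have hv0 : v0 ≠ 0 := by
    rintro rfl
    apply hF0'
    have : kF u0 (0 : K) = 0 := by simp [kF]
    rw [this]; exact h0
  rcases A.mem_or_inv_mem (u0 / v0) with hz | hz
  · by_cases hv : v0 ∈ A
    · refine ⟨?_, hv⟩
      have : u0 = u0 / v0 * v0 := by field_simp
      rw [this]; exact A.mul_mem _ _ hz hv
    · exact (klein_integral_aux A h5 hz hv hH0 hF0).elim
  · by_cases hu : u0 ∈ A
    · refine ⟨hu, ?_⟩
      have : v0 = (u0 / v0)⁻¹ * u0 := by field_simp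
      rw [this]; exact A.mul_mem _ _ hz hu
    · have hu' : -u0 ∉ A := fun h => hu (by simpa using A.neg_mem _ h)
      have hz' : v0 / -u0 ∈ A := by
        have : v0 / -u0 = -(u0 / v0)⁻¹ := by
          rw [inv_div, div_neg]
        rw [this]; exact A.neg_mem _ hz
      refine (klein_integral_aux A h5 hz' hu' ?_ ?_).elim
      · rw [kH_swap]; exact hH0
      · rw [kF_swap]; exact hF0

/-- **Far clause, valuation-subring form.** -/
theorem not_both_nonunits (A : ValuationSubring K) (h30 : (30 : K) ∉ A.nonunits) {u0 v0 : K}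
    (hH0 : kH u0 v0 ∈ A) (hF0 : kF u0 v0 ∈ A) (hF0' : kF u0 v0 ∉ A.nonunits)
    {s t : K} (hs : s ∈ A) (ht : t ∈ A) (hst : ¬ (s ∈ A.nonunits ∧ t ∈ A.nonunits)) :
    ¬ (kH (s * u0 + t * kFv u0 v0) (s * v0 - t * kFu u0 v0) ∈ A.nonunits ∧
       kF (s * u0 + t * kFv u0 v0) (s * v0 - t * kFu u0 v0) ∈ A.nonunits) := by
  have hP : (IsLocalRing.maximalIdeal A).IsPrime := inferInstance
  have h30' : (30 : A) ∉ IsLocalRing.maximalIdeal A := by
    have := natCast_not_mem_maximalIdeal A (n := 30) (by simpa using h30)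
    simpa using this
  have h5' : (5 : A) ∉ IsLocalRing.maximalIdeal A := by
    intro h
    apply h30'
    have e : (30 : A) = 5 * 6 := by norm_num
    rw [e]; exact Ideal.mul_mem_right _ _ h
  have h12' : (12 : A) ∉ IsLocalRing.maximalIdeal A := by
    intro h
    apply h30'
    have e : (30 : A) ^ 2 = 12 * 75 := by norm_num
    have : (30 : A) ^ 2 ∈ IsLocalRing.maximalIdeal A := by
      rw [e]; exact Ideal.mul_mem_right _ _ h
    exact hP.mem_of_pow_mem 2 this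
  have h5 : (5 : K) ∉ A.nonunits := by
    intro h
    apply h5'
    have h' : (((5 : ℕ) : A) : K) ∈ A.nonunits := by
      rw [SubringClass.coe_natCast]; simpa using h
    have := (ValuationSubring.coe_mem_nonunits_iff (A := A)).mp h'
    simpa using this
  obtain ⟨hu, hv⟩ := klein_integral A h5 hH0 hF0 hF0'
  have hF0m : kF (⟨u0, hu⟩ : A) ⟨v0, hv⟩ ∉ IsLocalRing.maximalIdeal A := by
    intro h
    apply hF0'
    have h1 := (ValuationSubring.coe_mem_nonunits_iff (A := A)).mpr h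
    have h2 := map_kF A.subtype (⟨u0, hu⟩ : A) ⟨v0, hv⟩
    simp only [ValuationSubring.subtype_apply] at h2
    rw [h2] at h1
    exact h1
  have hstm : ¬ ((⟨s, hs⟩ : A) ∈ IsLocalRing.maximalIdeal A ∧
      (⟨t, ht⟩ : A) ∈ IsLocalRing.maximalIdeal A) := by
    rintro ⟨h1, h2⟩
    exact hst ⟨(ValuationSubring.coe_mem_nonunits_iff (A := A)).mpr h1,
      (ValuationSubring.coe_mem_nonunits_iff (A := A)).mpr h2⟩
  have key := far_core (IsLocalRing.maximalIdeal A) h5' h12' hF0m hstm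
  rintro ⟨hH, hF⟩
  apply key
  have eH := map_kH A.subtype ((⟨s, hs⟩ : A) * ⟨u0, hu⟩ + ⟨t, ht⟩ * kFv (⟨u0, hu⟩ : A) ⟨v0, hv⟩)
    ((⟨s, hs⟩ : A) * ⟨v0, hv⟩ - ⟨t, ht⟩ * kFu (⟨u0, hu⟩ : A) ⟨v0, hv⟩)
  have eF := map_kF A.subtype ((⟨s, hs⟩ : A) * ⟨u0, hu⟩ + ⟨t, ht⟩ * kFv (⟨u0, hu⟩ : A) ⟨v0, hv⟩)
    ((⟨s, hs⟩ : A) * ⟨v0, hv⟩ - ⟨t, ht⟩ * kFu (⟨u0, hu⟩ : A) ⟨v0, hv⟩)
  simp only [map_add, map_sub, map_mul, map_kFu, map_kFv, ValuationSubring.subtype_apply] at eH eF
  constructor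
  · rw [← ValuationSubring.coe_mem_nonunits_iff, eH]; exact hH
  · rw [← ValuationSubring.coe_mem_nonunits_iff, eF]; exact hF

/-- An integer lies in the maximal ideal of a valuation subring over `q` iff `q` divides it. -/
theorem intCast_mem_nonunits_iff (A : ValuationSubring K) {q : ℕ} (hq : q.Prime)
    (hqA : (q : K) ∈ A.nonunits) (n : ℤ) : (n : K) ∈ A.nonunits ↔ (q : ℤ) ∣ n := by
  have hqm : (q : A) ∈ IsLocalRing.maximalIdeal A := by
    rw [← ValuationSubring.coe_mem_nonunits_iff]; simpa using hqA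
  constructor
  · intro hn
    by_contra hdvd
    have hnm : (n : A) ∈ IsLocalRing.maximalIdeal A := by
      rw [← ValuationSubring.coe_mem_nonunits_iff]; simpa using hn
    have hcop : IsCoprime (q : ℤ) n :=
      ((Nat.prime_iff_prime_int.mp hq).coprime_iff_not_dvd).mpr hdvd
    obtain ⟨a, b, hab⟩ := hcop
    have h1 : ((a : A) * (q : A) + (b : A) * (n : A)) = 1 := by
      have := congrArg (Int.cast : ℤ → A) hab
      push_cast at this
      exact this
    apply one_not_mem_maximalIdeal A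
    rw [← h1]
    exact Ideal.add_mem _ (Ideal.mul_mem_left _ _ hqm) (Ideal.mul_mem_left _ _ hnm)
  · rintro ⟨m, rfl⟩
    have : (((q : ℤ) * m : ℤ) : K) = (((q : A) * (m : A) : A) : K) := by push_cast; rfl
    rw [this, ValuationSubring.coe_mem_nonunits_iff]
    exact Ideal.mul_mem_right _ _ hqm

lemma pow_mem_nonunits_iff (A : ValuationSubring K) (x : K) {n : ℕ} (hn : n ≠ 0) :
    x ^ n ∈ A.nonunits ↔ x ∈ A.nonunits := by
  rw [ValuationSubring.mem_nonunits_iff, ValuationSubring.mem_nonunits_iff, map_pow]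
  exact pow_lt_one_iff hn

lemma pow_mem_iff (A : ValuationSubring K) (x : K) {n : ℕ} (hn : n ≠ 0) :
    x ^ n ∈ A ↔ x ∈ A := by
  rw [← A.valuation_le_one_iff, ← A.valuation_le_one_iff, map_pow]
  exact pow_le_one_iff hn

/-- **Far clause, integer form.** `A` a valuation subring of `K` over the prime `q ∤ 30`;
`p₀ = (u0, v0) ∈ K²` with `kH p₀ = c`, `(kF p₀)⁵ = D` integers, `q ∤ D`; `s, t` coprime integers;
`p = s p₀ + t (f_v, -f_u)(p₀)` with `kH p = c'`, `(kF p)⁵ = D'` integers.  Then `q ∣ D' → ¬ q ∣ c'`. -/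
theorem far_clause (A : ValuationSubring K) {q : ℕ} (hq : q.Prime) (hqA : (q : K) ∈ A.nonunits)
    (hq30 : ¬ (q : ℤ) ∣ 30) {u0 v0 : K} {c D : ℤ} (hH0 : kH u0 v0 = (c : K))
    (hF0 : kF u0 v0 ^ 5 = (D : K)) (hD : ¬ (q : ℤ) ∣ D) {s t : ℤ} (hst : IsCoprime s t)
    {c' D' : ℤ}
    (hH : kH ((s : K) * u0 + (t : K) * kFv u0 v0) ((s : K) * v0 - (t : K) * kFu u0 v0) = (c' : K))
    (hF : kF ((s : K) * u0 + (t : K) * kFv u0 v0) ((s : K) * v0 - (t : K) * kFu u0 v0) ^ 5 =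
      (D' : K)) (hD' : (q : ℤ) ∣ D') : ¬ (q : ℤ) ∣ c' := by
  intro hc'
  have hint : ∀ n : ℤ, (n : K) ∈ A := fun n => by
    have : (n : K) = ((n : A) : K) := by push_cast; rfl
    rw [this]; exact (n : A).2
  have h30 : (30 : K) ∉ A.nonunits := by
    intro h
    apply hq30
    have := (intCast_mem_nonunits_iff A hq hqA 30).mp (by simpa using h)
    exact this
  have hH0A : kH u0 v0 ∈ A := by rw [hH0]; exact hint c
  have hF0A : kF u0 v0 ∈ A := by
    rw [← pow_mem_iff A _ (n := 5) (by norm_num), hF0]; exact hint D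
  have hF0' : kF u0 v0 ∉ A.nonunits := by
    rw [← pow_mem_nonunits_iff A _ (n := 5) (by norm_num), hF0, intCast_mem_nonunits_iff A hq hqA]
    exact hD
  have hstA : ¬ ((s : K) ∈ A.nonunits ∧ (t : K) ∈ A.nonunits) := by
    rw [intCast_mem_nonunits_iff A hq hqA, intCast_mem_nonunits_iff A hq hqA]
    rintro ⟨h1, h2⟩
    have hp := Nat.prime_iff_prime_int.mp hq
    exact hp.not_isUnit (hst.isUnit_of_dvd' h1 h2)
  apply not_both_nonunits A h30 hH0A hF0A hF0' (hint s) (hint t) hstA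
  constructor
  · rw [hH, intCast_mem_nonunits_iff A hq hqA]; exact hc'
  · rw [← pow_mem_nonunits_iff A _ (n := 5) (by norm_num), hF, intCast_mem_nonunits_iff A hq hqA]
    exact hD'

end valuation

end Fermat.Agent.S52.Model.FarClause74
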