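/-
S52 (3-5 switch), brick (D), assembly -- helper74.

The member of the twisted Klein family at an integer parameter `t` which is close to `0` at the primes of
`30 Δ` is represented by a SEMISTABLE integral model with nonzero discriminant.

Binding normalisation of plan #278 (names of `Klein/Defs51`): `E_p : y² = x³ + 27 H(p) x + 54 T(p)`, i.e.
`c₄ = -kH p`, `c₆ = -kT p`, `Δ = -(kf p)⁵`.  Base point `p₀ = (u0, v0) ∈ ℚ̄²` with
`kH p₀ = -c₄(W)`, `kT p₀ = -c₆(W)`; line `p(t) = p₀ + t (kfv, -kfu)(p₀)` (use `-t` for the other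
orientation); `c4' = -kH (p t)`, `c6' = -kT (p t)` integers, close to `c₄(W)`, `c₆(W)` modulo
`modulus W = 1728 (30 Δ)²`.  Then `closeModel W c4' c6'` has invariants `c4', c6'`, nonzero discriminant and
is semistable.
-/
import Mathlib
import Fermat.Prelude.Def_FLTPrelim_Modularity
import Fermat.Agent.Lib.FrobeniusExists
import Fermat.Agent.S52.Klein.Defs51
import Fermat.Agent.S52.Model.ModelClose74
import Fermat.Agent.S52.Model.FarClause74

set_option autoImplicit false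

namespace Fermat.Agent.S52.Model.Member74

open Fermat.Agent.S52.Model.ModelClose74
open Fermat.Agent.S52.Model

local notation "Qb" => AlgebraicClosure ℚ

section bridge

variable {R : Type*} [CommRing R]

lemma kH_bridge (u v : R) : FarClause74.kH u v = -Klein.kH u v := by
  simp only [FarClause74.kH, Klein.kH]; ring

lemma kF_bridge (u v : R) : FarClause74.kF u v = Klein.kf u v := rfl

lemma kFu_bridge (u v : R) : FarClause74.kFu u v = Klein.kfu u v := rfl

lemma kFv_bridge (u v : R) : FarClause74.kFv u v = Klein.kfv u v := rfl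

end bridge

/-- The closeness modulus: `t ≡ 0` modulo this makes the member semistable. -/
def modulus (W : WeierstrassCurve ℤ) : ℤ := 1728 * (30 * W.Δ) ^ 2

lemma dvd_modulus_of_dvd (W : WeierstrassCurve ℤ) {q : ℤ} (hq : q ∣ 30 * W.Δ) :
    1728 * q ∣ modulus W := by
  unfold modulus
  exact mul_dvd_mul_left _ (hq.trans (dvd_pow_self _ (by norm_num)))

/-- `Δ = -(kf p)⁵` from Klein's relation, for a point `p` with `kH p = -c₄`, `kT p = -c₆`. -/
lemma kf_pow_five_eq {K : Type*} [Field K] [CharZero K] (W : WeierstrassCurve ℤ) {u v : K}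
    (hH : Klein.kH u v = -(W.c₄ : K)) (hT : Klein.kT u v = -(W.c₆ : K)) :
    Klein.kf u v ^ 5 = ((-W.Δ : ℤ) : K) := by
  have h1 := Klein.klein_relation u v
  rw [hH, hT] at h1
  have h2 : (1728 : K) * (W.Δ : K) = (W.c₄ : K) ^ 3 - (W.c₆ : K) ^ 2 := by
    exact_mod_cast congrArg (Int.cast : ℤ → K) W.c_relation
  have h3 : (1728 : K) * Klein.kf u v ^ 5 = 1728 * ((-W.Δ : ℤ) : K) := by
    push_cast
    linear_combination -h1 + h2
  exact mul_left_cancel₀ (by norm_num) h3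

/-- **(D), assembly.** -/
theorem semistable_member (W : WeierstrassCurve ℤ) (hΔ : W.Δ ≠ 0) (hW : W.IsSemistableModel)
    {u0 v0 : Qb} (hH0 : Klein.kH u0 v0 = -(W.c₄ : Qb)) (hT0 : Klein.kT u0 v0 = -(W.c₆ : Qb))
    (t : ℤ) {c4' c6' : ℤ}
    (hH : Klein.kH (u0 + (t : Qb) * Klein.kfv u0 v0) (v0 - (t : Qb) * Klein.kfu u0 v0) =
      -(c4' : Qb))
    (hT : Klein.kT (u0 + (t : Qb) * Klein.kfv u0 v0) (v0 - (t : Qb) * Klein.kfu u0 v0) =
      -(c6' : Qb))
    (h4 : modulus W ∣ c4' - W.c₄) (h6 : modulus W ∣ c6' - W.c₆) :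
    (closeModel W c4' c6').c₄ = c4' ∧ (closeModel W c4' c6').c₆ = c6' ∧
      (closeModel W c4' c6').Δ ≠ 0 ∧ (closeModel W c4' c6').IsSemistableModel := by
  have h1728 : (1728 : ℤ) ∣ modulus W := Dvd.intro _ rfl
  have h48 : (48 : ℤ) ∣ c4' - W.c₄ := Dvd.dvd.trans (by norm_num) (h1728.trans h4)
  have hc4 : (closeModel W c4' c6').c₄ = c4' := closeModel_c₄ W c6' h48
  have hc6 : (closeModel W c4' c6').c₆ = c6' :=
    closeModel_c₆ W h48
      (dvd_add (Dvd.dvd.mul_left (h1728.trans h6) 2) (Dvd.dvd.mul_left (h1728.trans h4) _))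
  set W' := closeModel W c4' c6' with hW'
  have h4' : modulus W ∣ W'.c₄ - W.c₄ := by rw [hc4]; exact h4
  have h6' : modulus W ∣ W'.c₆ - W.c₆ := by rw [hc6]; exact h6
  refine ⟨hc4, hc6, ?_, ?_⟩
  · -- `Δ' ≠ 0`
    intro h0
    have h := dvd_mul_Δ_sub W W' h4' h6'
    rw [h0, zero_sub] at h
    have h' : (30 * W.Δ) ^ 2 ∣ -W.Δ := by
      unfold modulus at h
      exact (mul_dvd_mul_iff_left (by norm_num : (1728 : ℤ) ≠ 0)).mp h
    obtain ⟨k, hk⟩ := h'
    have e : W.Δ * (900 * W.Δ * k + 1) = 0 := by linear_combination -hk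
    rcases mul_eq_zero.mp e with h | h
    · exact hΔ h
    · have : (900 : ℤ) ∣ 1 := ⟨-(W.Δ * k), by linear_combination h⟩
      norm_num at this
  · -- semistability
    apply isSemistableModel_of_close W W' hW h4' h6'
    intro q hq hfar
    have hq30Δ : ¬ (q : ℤ) ∣ 30 * W.Δ := fun h => hfar (dvd_modulus_of_dvd W h)
    have hq30 : ¬ (q : ℤ) ∣ 30 := fun h => hq30Δ (Dvd.dvd.mul_right h _)
    have hqΔ : ¬ (q : ℤ) ∣ -W.Δ := fun h => hq30Δ (Dvd.dvd.mul_left ((dvd_neg).mp h) _)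
    obtain ⟨A, hA⟩ := Fermat.Agent.Lib.FrobeniusExists.exists_valuationSubring_liesOverPrime q hq
    have hF0 := kf_pow_five_eq W hH0 hT0
    have hH' : Klein.kH (u0 + (t : Qb) * Klein.kfv u0 v0) (v0 - (t : Qb) * Klein.kfu u0 v0) =
        -(W'.c₄ : Qb) := by rw [hc4]; exact hH
    have hT' : Klein.kT (u0 + (t : Qb) * Klein.kfv u0 v0) (v0 - (t : Qb) * Klein.kfu u0 v0) =
        -(W'.c₆ : Qb) := by rw [hc6]; exact hT
    have hF := kf_pow_five_eq W' hH' hT'
    have key := FarClause74.far_clause A hq hA hq30 (u0 := u0) (v0 := v0) (c := W.c₄) (D := -W.Δ)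
      (by rw [kH_bridge, hH0, neg_neg]) (by rw [kF_bridge]; exact hF0) hqΔ
      (s := 1) (t := t) (isCoprime_one_left) (c' := W'.c₄) (D' := -W'.Δ)
      (by
        rw [kH_bridge, kFu_bridge, kFv_bridge, Int.cast_one, one_mul, one_mul, hH', neg_neg])
      (by
        rw [kF_bridge, kFu_bridge, kFv_bridge, Int.cast_one, one_mul, one_mul]; exact hF)
    intro hΔ'
    exact key ((dvd_neg).mpr hΔ')

/-- Version for the other orientation `q₀ = (-kfv, kfu)(p₀)` of the line (plan #278). -/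
theorem semistable_member' (W : WeierstrassCurve ℤ) (hΔ : W.Δ ≠ 0) (hW : W.IsSemistableModel)
    {u0 v0 : Qb} (hH0 : Klein.kH u0 v0 = -(W.c₄ : Qb)) (hT0 : Klein.kT u0 v0 = -(W.c₆ : Qb))
    (t : ℤ) {c4' c6' : ℤ}
    (hH : Klein.kH (u0 + (t : Qb) * -Klein.kfv u0 v0) (v0 + (t : Qb) * Klein.kfu u0 v0) =
      -(c4' : Qb))
    (hT : Klein.kT (u0 + (t : Qb) * -Klein.kfv u0 v0) (v0 + (t : Qb) * Klein.kfu u0 v0) =
      -(c6' : Qb))
    (h4 : modulus W ∣ c4' - W.c₄) (h6 : modulus W ∣ c6' - W.c₆) :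
    (closeModel W c4' c6').c₄ = c4' ∧ (closeModel W c4' c6').c₆ = c6' ∧
      (closeModel W c4' c6').Δ ≠ 0 ∧ (closeModel W c4' c6').IsSemistableModel := by
  refine semistable_member W hΔ hW hH0 hT0 (-t) ?_ ?_ h4 h6
  · rw [← hH]; congr 1 <;> push_cast <;> ring
  · rw [← hT]; congr 1 <;> push_cast <;> ring

end Fermat.Agent.S52.Model.Member74
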